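/-
S55 / Poitou–Tate (PT2, lead): the final diagram chase.
Given the pairing `β : H¹(N) × 𝒢 → 𝔽_p` and the double connecting map `Θ : 𝒢 → H²(N')` with the
properties (h1)–(h6c) of the master plan, there is a pairing `Ш¹(N) × Ш²(N') → 𝔽_p` with both
kernels trivial.
-/
import Mathlib

set_option autoImplicit false

namespace Fermat.Agent.CFT.PT

variable {p : ℕ} [Fact p.Prime]
variable {H1 Loc1 H2 Loc2 G J : Type*} [AddCommGroup H1] [AddCommGroup Loc1] [AddCommGroup H2]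
  [AddCommGroup Loc2] [AddCommGroup G] [AddCommGroup J]

/-- The Poitou–Tate diagram chase (additive form). -/
theorem exists_pairing_of_chase
    (loc1 : H1 →+ Loc1) (loc2 : H2 →+ Loc2) (j : J →+ G) (R : AddSubgroup G) (Θ : G →+ H2)
    (β : H1 →+ G →+ ZMod p)
    (h1 : ∀ g, loc2 (Θ g) = 0)
    (h2 : ∀ x, loc2 x = 0 → ∃ g, Θ g = x)
    (h3 : ∀ g, Θ g = 0 ↔ ∃ r ∈ R, ∃ γ, g = r + j γ)
    (h4a : ∀ y, ∀ r ∈ R, β y r = 0)
    (h4b : ∀ y, loc1 y = 0 → ∀ γ, β y (j γ) = 0)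
    (h5 : ∀ y, loc1 y = 0 → (∀ g, β y g = 0) → y = 0)
    (h6a : ∀ l : H1 →+ ZMod p, (∀ y, loc1 y = 0 → l y = 0) → ∃ γ, ∀ y, β y (j γ) = l y)
    (h6c : ∀ g, (∀ y, β y g = 0) → g ∈ R) :
    ∃ B : loc1.ker →+ loc2.ker →+ ZMod p,
      (∀ y, (∀ x, B y x = 0) → y = 0) ∧ (∀ x, (∀ y, B y x = 0) → x = 0) := by
  classical
  have hker : ∀ y, loc1 y = 0 → ∀ g, Θ g = 0 → β y g = 0 := by
    intro y hy g hg
    obtain ⟨r, hr, γ, rfl⟩ := (h3 g).1 hg
    rw [map_add, h4a y r hr, h4b y hy γ, add_zero]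
  have hwd : ∀ y, loc1 y = 0 → ∀ g g', Θ g = Θ g' → β y g = β y g' := by
    intro y hy g g' hgg
    have : β y (g - g') = 0 := hker y hy _ (by rw [map_sub, hgg, sub_self])
    rw [map_sub, sub_eq_zero] at this
    exact this
  choose s hs using fun x : loc2.ker => h2 x.1 x.2
  let B : loc1.ker →+ loc2.ker →+ ZMod p :=
    AddMonoidHom.mk' (fun y =>
      AddMonoidHom.mk' (fun x => β y.1 (s x)) (by
        intro x x'
        rw [← map_add]
        exact hwd y.1 y.2 _ _ (by rw [map_add, hs, hs, hs]; rfl)))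
      (by
        intro y y'
        ext x
        simp only [AddMonoidHom.mk'_apply, AddMonoidHom.add_apply, AddSubgroup.coe_add, map_add])
  have hB : ∀ (y : loc1.ker) (x : loc2.ker), B y x = β y.1 (s x) := fun _ _ => rfl
  refine ⟨B, ?_, ?_⟩
  · intro y hy
    have : (y : H1) = 0 := by
      refine h5 y.1 y.2 fun g => ?_
      have h := hy ⟨Θ g, h1 g⟩
      rw [hB] at h
      rw [← h]
      exact hwd y.1 y.2 _ _ (hs ⟨Θ g, h1 g⟩).symm
    exact Subtype.ext this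
  · intro x hx
    set g := s x with hg
    have hl : ∀ y, loc1 y = 0 → (β.flip g) y = 0 := by
      intro y hy
      have := hx ⟨y, hy⟩
      rw [hB] at this
      simpa using this
    obtain ⟨γ, hγ⟩ := h6a (β.flip g) hl
    have hR : g - j γ ∈ R := by
      refine h6c _ fun y => ?_
      rw [map_sub, hγ y]
      simp
    have hΘ : Θ g = 0 := (h3 g).2 ⟨g - j γ, hR, γ, by abel⟩
    apply Subtype.ext
    rw [← hs x]
    exact hΘ

/-- Linear form of the chase over `ZMod p`. -/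
theorem exists_linear_pairing_of_chase
    {V1 V2 : Type*} [AddCommGroup V1] [Module (ZMod p) V1] [AddCommGroup V2] [Module (ZMod p) V2]
    (B : V1 →+ V2 →+ ZMod p)
    (hl : ∀ y, (∀ x, B y x = 0) → y = 0) (hr : ∀ x, (∀ y, B y x = 0) → x = 0) :
    ∃ B' : V1 →ₗ[ZMod p] V2 →ₗ[ZMod p] ZMod p,
      (∀ y, (∀ x, B' y x = 0) → y = 0) ∧ (∀ x, (∀ y, B' y x = 0) → x = 0) := by
  refine ⟨AddMonoidHom.toZModLinearMap p
    ((AddMonoidHom.toZModLinearMapEquiv p (M := V2) (M₁ := ZMod p)).toAddMonoidHom.comp B),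
    ?_, ?_⟩
  · intro y hy
    exact hl y fun x => hy x
  · intro x hx
    exact hr x fun y => hx y

end Fermat.Agent.CFT.PT
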